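import Fermat.Agent.S55.L.Duality.Defs

/-!
# S55 [L] L5-L7: cohomology with trivial coefficients, iso invariance, Shapiro numerics
TASK S55/L-DTriv.
`X ≃ (Fin d → k)` (basis), trivial rep on `Fin d → k` = `piRep (fun _ => trivial)`, `pi_bijective*`,
`Mackey.coeff_equiv_bijective*` (an equivariant linear equivalence induces bijections on `H^i`),
`sh_bijective*`.
-/

set_option autoImplicit false

noncomputable section

namespace Fermat.Agent.S55

open Module

variable {k : Type} [Field k] {H : Type} [Group H]
variable {X X' : Type} [AddCommGroup X] [Module k X] [AddCommGroup X'] [Module k X']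

/-- the coarsest level structure (only `⊤` is open); used where a level structure is formally
needed but irrelevant (degree 0). -/
def Triv_levels (H : Type) [Group H] : Levels H where
  IsOpen U := U = ⊤
  isOpen_top := rfl
  isOpen_inf := by rintro _ _ rfl rfl; simp
  isOpen_mono := by rintro _ V rfl h; exact top_le_iff.1 h
  exists_normal := by rintro _ rfl; exact ⟨⊤, rfl, le_rfl, inferInstance, inferInstance⟩

/-- a representation all of whose operators are `1` is the trivial representation. -/
lemma eq_trivial_of_forall (ρ : Representation k H X) (h : ∀ g, ρ g = 1) :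
    ρ = Representation.trivial k H X := by
  ext g x
  rw [h g]
  rfl

section congr
variable (L : Levels H) {ρ : Representation k H X} {σ : Representation k H X'}
  (e : X ≃ₗ[k] X') (he : ∀ h x, e (ρ h x) = σ h (e x))

include he in
lemma finrank_H0_congr : finrank k ↥(H0 ρ) = finrank k ↥(H0 σ) :=
  (LinearEquiv.ofBijective _ (Mackey.coeff_equiv_bijective0 (Triv_levels H) e he)).finrank_eq

include he in
lemma finrank_H1_congr : finrank k (H1 L ρ) = finrank k (H1 L σ) :=
  (LinearEquiv.ofBijective _ (Mackey.coeff_equiv_bijective1 L e he)).finrank_eq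

include he in
lemma finrank_H2_congr : finrank k (H2 L ρ) = finrank k (H2 L σ) :=
  (LinearEquiv.ofBijective _ (Mackey.coeff_equiv_bijective2 L e he)).finrank_eq

include he in
lemma finiteDimensional_H1_congr [FiniteDimensional k (H1 L ρ)] :
    FiniteDimensional k (H1 L σ) :=
  Module.Finite.equiv (LinearEquiv.ofBijective _ (Mackey.coeff_equiv_bijective1 L e he))

include he in
lemma finiteDimensional_H2_congr [FiniteDimensional k (H2 L ρ)] :
    FiniteDimensional k (H2 L σ) :=
  Module.Finite.equiv (LinearEquiv.ofBijective _ (Mackey.coeff_equiv_bijective2 L e he))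

include he in
lemma eulerChar_congr : eulerChar L ρ = eulerChar L σ := by
  unfold eulerChar
  rw [finrank_H0_congr e he, finrank_H1_congr L e he, finrank_H2_congr L e he]

end congr

section triv
variable (L : Levels H) (X)

/-- `X ≃ (Fin d → k)`, equivariant for the trivial actions. -/
lemma Triv_basis_comm [FiniteDimensional k X] (h : H) (x : X) :
    (Module.finBasis k X).equivFun (Representation.trivial k H X h x) =
      piRep (fun _ : Fin (finrank k X) => Representation.trivial k H k) h
        ((Module.finBasis k X).equivFun x) := by
  ext j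
  rfl

/-- `H^1` with trivial coefficients `X` is `(H^1 with coefficients k)^{dim X}`. -/
def Triv_equiv1 [FiniteDimensional k X] :
    H1 L (Representation.trivial k H X) ≃ₗ[k]
      (Fin (finrank k X) → H1 L (Representation.trivial k H k)) :=
  (LinearEquiv.ofBijective _ (Mackey.coeff_equiv_bijective1 L (Module.finBasis k X).equivFun
    (Triv_basis_comm X))).trans
  (LinearEquiv.ofBijective _ (pi_bijective1 L
    (fun _ : Fin (finrank k X) => Representation.trivial k H k)))

/-- `H^2` with trivial coefficients `X` is `(H^2 with coefficients k)^{dim X}`. -/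
def Triv_equiv2 [FiniteDimensional k X] :
    H2 L (Representation.trivial k H X) ≃ₗ[k]
      (Fin (finrank k X) → H2 L (Representation.trivial k H k)) :=
  (LinearEquiv.ofBijective _ (Mackey.coeff_equiv_bijective2 L (Module.finBasis k X).equivFun
    (Triv_basis_comm X))).trans
  (LinearEquiv.ofBijective _ (pi_bijective2 L
    (fun _ : Fin (finrank k X) => Representation.trivial k H k)))

lemma finrank_H0_trivial : finrank k ↥(H0 (Representation.trivial k H X)) = finrank k X := by
  have : H0 (Representation.trivial k H X) = ⊤ := by
    rw [eq_top_iff]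
    intro x _ g
    rfl
  rw [this, finrank_top]

lemma finiteDimensional_H1_trivial [FiniteDimensional k X]
    [FiniteDimensional k (H1 L (Representation.trivial k H k))] :
    FiniteDimensional k (H1 L (Representation.trivial k H X)) :=
  Module.Finite.equiv (Triv_equiv1 X L).symm

lemma finiteDimensional_H2_trivial [FiniteDimensional k X]
    [FiniteDimensional k (H2 L (Representation.trivial k H k))] :
    FiniteDimensional k (H2 L (Representation.trivial k H X)) :=
  Module.Finite.equiv (Triv_equiv2 X L).symm

lemma finrank_H1_trivial [FiniteDimensional k X]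
    [FiniteDimensional k (H1 L (Representation.trivial k H k))] :
    finrank k (H1 L (Representation.trivial k H X)) =
      finrank k X * finrank k (H1 L (Representation.trivial k H k)) := by
  have : Module.Free k (H1 L (Representation.trivial k H k)) := Module.Free.of_divisionRing k _
  rw [(Triv_equiv1 X L).finrank_eq, Module.finrank_pi_fintype]
  simp

lemma finrank_H2_trivial [FiniteDimensional k X]
    [FiniteDimensional k (H2 L (Representation.trivial k H k))] :
    finrank k (H2 L (Representation.trivial k H X)) =
      finrank k X * finrank k (H2 L (Representation.trivial k H k)) := by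
  have : Module.Free k (H2 L (Representation.trivial k H k)) := Module.Free.of_divisionRing k _
  rw [(Triv_equiv2 X L).finrank_eq, Module.finrank_pi_fintype]
  simp

end triv

section shapiro
variable (L : Levels H) (ρ : Representation k H X) [Smooth L ρ] (V : Subgroup H)

lemma finrank_H0_Fun : finrank k ↥(H0 (Fun ρ (H ⧸ V))) = finrank k ↥(H0 (rsub ρ V)) :=
  (LinearEquiv.ofBijective _ (ev_bijective0 (Triv_levels H) ρ (H ⧸ V) V _
    (mem_iff_smul_coe_one V))).finrank_eq

lemma finrank_H1_Fun (hV : L.IsOpen V) :
    finrank k (H1 L (Fun ρ (H ⧸ V))) = finrank k (H1 (L.sub V) (rsub ρ V)) :=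
  (LinearEquiv.ofBijective _ (sh_bijective1 L ρ V hV)).finrank_eq

lemma finrank_H2_Fun (hV : L.IsOpen V) :
    finrank k (H2 L (Fun ρ (H ⧸ V))) = finrank k (H2 (L.sub V) (rsub ρ V)) :=
  (LinearEquiv.ofBijective _ (sh_bijective2 L ρ V hV)).finrank_eq

lemma finiteDimensional_H1_Fun (hV : L.IsOpen V)
    [FiniteDimensional k (H1 (L.sub V) (rsub ρ V))] :
    FiniteDimensional k (H1 L (Fun ρ (H ⧸ V))) :=
  Module.Finite.equiv (LinearEquiv.ofBijective _ (sh_bijective1 L ρ V hV)).symm

lemma finiteDimensional_H2_Fun (hV : L.IsOpen V)
    [FiniteDimensional k (H2 (L.sub V) (rsub ρ V))] :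
    FiniteDimensional k (H2 L (Fun ρ (H ⧸ V))) :=
  Module.Finite.equiv (LinearEquiv.ofBijective _ (sh_bijective2 L ρ V hV)).symm

/-- if `V` acts trivially on `X`. -/
lemma rsub_eq_trivial (hρ : ∀ g ∈ V, ρ g = 1) : rsub ρ V = Representation.trivial k V X :=
  eq_trivial_of_forall _ (fun g => hρ g g.2)

lemma finrank_Fun [FiniteDimensional k X] (hV : L.IsOpen V) :
    finrank k (H ⧸ V → X) = V.index * finrank k X := by
  have := L.finite_quotient hV
  let _ := Fintype.ofFinite (H ⧸ V)
  rw [Module.finrank_pi_fintype]
  simp [Subgroup.index, Nat.card_eq_fintype_card]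

end shapiro

end Fermat.Agent.S55

end
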