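import Fermat.Agent.S55.Coh.All
import Fermat.Prelude.Def_GroupCohomology_Selmer

/-!
# S55 [L] L5-L7 (local duality from numerics): definitions.  FROZEN.
-/

set_option autoImplicit false

noncomputable section

namespace Fermat.Agent.S55

open Module

/-- the trivial representation on `𝔽_p`. -/
abbrev trivF (p : ℕ) (H : Type) [Group H] : Representation (ZMod p) H (ZMod p) :=
  Representation.trivial (ZMod p) H (ZMod p)

variable {p : ℕ} [Fact p.Prime] {H : Type} [Group H]

/-- `μ = 𝔽_p(ω)` (same formula as `Datum.mu`). -/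
def muOf (ω : H →* (ZMod p)ˣ) : Representation (ZMod p) H (ZMod p) :=
  (trivF p H).twist ω

lemma muOf_apply (ω : H →* (ZMod p)ˣ) (g : H) (x : ZMod p) : muOf ω g x = (ω g : ZMod p) • x := rfl

/-- numerical hypotheses, "split" case (`μ_p` trivial): for every open `W`:
`h^1(W;𝔽_p) = 2 + n [H:W]`, `h^2(W;𝔽_p) = 1`. -/
structure SplitHyp (p : ℕ) [Fact p.Prime] {H : Type} [Group H] (L : Levels H) (n : ℕ) : Prop where
  h1 : ∀ W : Subgroup H, L.IsOpen W →
    finrank (ZMod p) (H1 (L.sub W) (trivF p W)) = 2 + n * W.index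
  h2 : ∀ W : Subgroup H, L.IsOpen W → finrank (ZMod p) (H2 (L.sub W) (trivF p W)) = 1

/-- numerical hypotheses: the same for the open subgroups `W ≤ ker ω`. -/
structure LocalHyp (p : ℕ) [Fact p.Prime] {H : Type} [Group H] (L : Levels H)
    (ω : H →* (ZMod p)ˣ) (n : ℕ) : Prop where
  ω_open : L.IsOpen ω.ker
  h1 : ∀ W : Subgroup H, L.IsOpen W → W ≤ ω.ker →
    finrank (ZMod p) (H1 (L.sub W) (trivF p W)) = 2 + n * W.index
  h2 : ∀ W : Subgroup H, L.IsOpen W → W ≤ ω.ker →
    finrank (ZMod p) (H2 (L.sub W) (trivF p W)) = 1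

variable {X : Type} [AddCommGroup X] [Module (ZMod p) X]

/-- an invariant of `X' = X^*(ω)` is an equivariant map `X → μ`. -/
lemma dualTwist_invariant_apply (ρ : Representation (ZMod p) H X) (ω : H →* (ZMod p)ˣ)
    (φ : ↥(H0 (ρ.dual.twist ω))) (g : H) (x : X) :
    (φ : Module.Dual (ZMod p) X) (ρ g x) = muOf ω g ((φ : Module.Dual (ZMod p) X) x) := by
  have h := congrArg (fun ψ : Module.Dual (ZMod p) X => ψ (ρ g x)) (φ.2 g)
  simp only [Representation.twist_apply_apply,
    LinearMap.smul_apply, Representation.dual_apply, Module.Dual.transpose_apply,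
    LinearMap.comp_apply] at h
  rw [← Module.End.mul_apply, ← map_mul, inv_mul_cancel, map_one, Module.End.one_apply] at h
  rw [muOf_apply]
  exact h.symm

/-- conversely. -/
lemma mem_H0_dualTwist_iff (ρ : Representation (ZMod p) H X) (ω : H →* (ZMod p)ˣ)
    (φ : Module.Dual (ZMod p) X) :
    φ ∈ H0 (ρ.dual.twist ω) ↔ ∀ g x, φ (ρ g x) = (ω g : ZMod p) • φ x := by
  constructor
  · intro h g x
    exact dualTwist_invariant_apply ρ ω ⟨φ, h⟩ g x
  · intro h g
    ext x
    simp only [Representation.twist_apply_apply, LinearMap.smul_apply, Representation.dual_apply,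
      Module.Dual.transpose_apply, LinearMap.comp_apply]
    have := h g (ρ g⁻¹ x)
    rw [← Module.End.mul_apply, ← map_mul, mul_inv_cancel, map_one, Module.End.one_apply] at this
    exact this.symm

/-- the coefficient pair `X → μ` attached to `φ ∈ H^0(X')`. -/
def evP (L : Levels H) (ρ : Representation (ZMod p) H X) (ω : H →* (ZMod p)ˣ)
    (φ : ↥(H0 (ρ.dual.twist ω))) : Pair L ρ L (muOf ω) :=
  Pair.coeff L (φ : Module.Dual (ZMod p) X) (dualTwist_invariant_apply ρ ω φ)

/-- `φ_W(X) = χ(X) + n dim X`. -/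
def phi (L : Levels H) (n : ℕ) (ρ : Representation (ZMod p) H X) : ℤ :=
  eulerChar L ρ + n * finrank (ZMod p) X

end Fermat.Agent.S55

end
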