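import Fermat.Agent.S55.L.Duality.Left
import Fermat.Agent.S55.D.Setup

/-!
# S55 [L] L5-L7: the output in the shape of `Datum.Axioms` (fields finLoc1, finLoc2, L1_left, L1_right)
TASK S55/L-DGlue.
Apply `LocalHyp.fin1/fin2/left_nondeg/right_nondeg` to `H := ↥(𝒜.D v)`, `L := 𝒜.Lv v`,
`ω := 𝒜.ω.comp (𝒜.D v).subtype`, `ρ := rsub ρ (𝒜.D v)`.  The identifications
`rsub 𝒜.mu (𝒜.D v) = muOf (ω|)`, `rsub (𝒜.dualT ρ) (𝒜.D v) = (rsub ρ (𝒜.D v)).dual.twist (ω|)` should be `rfl`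
(after `MonoidHom.ext`/`LinearMap.ext`), and `𝒜.evPair v ρ φ`, `evP ..` have the same `f`, `φ`
(`Pair.map2_congr`).  Smoothness: `Smooth.mono 𝒜.le` + `Smooth.rsub`.
-/

set_option autoImplicit false

noncomputable section

namespace Fermat.Agent.S55

open Module

variable {p : ℕ} [Fact p.Prime]

namespace Datum

variable (𝒜 : Datum p) (n : 𝒜.ι → ℕ)
  (hyp : ∀ v, LocalHyp p (𝒜.Lv v) (𝒜.ω.comp (𝒜.D v).subtype) (n v))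
variable {X : Type} [AddCommGroup X] [Module (ZMod p) X] [FiniteDimensional (ZMod p) X]

omit [FiniteDimensional (ZMod p) X] in
lemma Glue_smooth (ρ : Representation (ZMod p) 𝒜.G X) [Smooth 𝒜.L ρ] (v : 𝒜.ι) :
    Smooth (𝒜.Lv v) (rsub ρ (𝒜.D v)) :=
  haveI : Smooth 𝒜.Lloc ρ := Smooth.mono 𝒜.le
  inferInstance

lemma Glue_mu (v : 𝒜.ι) : rsub 𝒜.mu (𝒜.D v) = muOf (𝒜.ω.comp (𝒜.D v).subtype) := rfl

omit [FiniteDimensional (ZMod p) X] in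
lemma Glue_dual (ρ : Representation (ZMod p) 𝒜.G X) (v : 𝒜.ι) :
    rsub (𝒜.dualT ρ) (𝒜.D v) = (rsub ρ (𝒜.D v)).dual.twist (𝒜.ω.comp (𝒜.D v).subtype) := rfl

include hyp

theorem finLoc1_of_localHyp (ρ : Representation (ZMod p) 𝒜.G X) [Smooth 𝒜.L ρ] (v : 𝒜.ι) :
    FiniteDimensional (ZMod p) (H1 (𝒜.Lv v) (rsub ρ (𝒜.D v))) :=
  haveI := 𝒜.Glue_smooth ρ v
  (hyp v).fin1 (rsub ρ (𝒜.D v))

theorem finLoc2_of_localHyp (ρ : Representation (ZMod p) 𝒜.G X) [Smooth 𝒜.L ρ] (v : 𝒜.ι) :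
    FiniteDimensional (ZMod p) (H2 (𝒜.Lv v) (rsub ρ (𝒜.D v))) :=
  haveI := 𝒜.Glue_smooth ρ v
  (hyp v).fin2 (rsub ρ (𝒜.D v))

theorem L1_left_of_localHyp (lam : ∀ v : 𝒜.ι, H2 (𝒜.Lv v) (rsub 𝒜.mu (𝒜.D v)) ≃ₗ[ZMod p] ZMod p)
    (ρ : Representation (ZMod p) 𝒜.G X) [Smooth 𝒜.L ρ] (v : 𝒜.ι)
    (z : H2 (𝒜.Lv v) (rsub ρ (𝒜.D v)))
    (hz : ∀ φ : ↥(H0 (rsub (𝒜.dualT ρ) (𝒜.D v))), lam v ((𝒜.evPair v ρ φ).map2 z) = 0) : z = 0 :=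
  haveI := 𝒜.Glue_smooth ρ v
  (hyp v).left_nondeg (lam v) (rsub ρ (𝒜.D v)) z hz

theorem L1_right_of_localHyp (lam : ∀ v : 𝒜.ι, H2 (𝒜.Lv v) (rsub 𝒜.mu (𝒜.D v)) ≃ₗ[ZMod p] ZMod p)
    (ρ : Representation (ZMod p) 𝒜.G X) [Smooth 𝒜.L ρ] (v : 𝒜.ι)
    (φ : ↥(H0 (rsub (𝒜.dualT ρ) (𝒜.D v))))
    (hφ : ∀ z : H2 (𝒜.Lv v) (rsub ρ (𝒜.D v)), lam v ((𝒜.evPair v ρ φ).map2 z) = 0) : φ = 0 :=
  haveI := 𝒜.Glue_smooth ρ v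
  (hyp v).right_nondeg (lam v) (rsub ρ (𝒜.D v)) φ hφ

end Datum

end Fermat.Agent.S55

end
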