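import Fermat.Agent.S55.L.Duality.Triv

/-!
# S55 [L] L7: finiteness of `H^1`, `H^2` for finite dimensional smooth modules
TASK S55/L-DFin.
`N` normal open acting trivially on `X` (`Smooth.exists_normal_of_fg`, intersect with the given
cofinal family), `I = Fun ρ (H ⧸ N)`, `0 → X → I → Q → 0` (`constSES`).
`H^i(H;I) = H^i(N;X|_N)` (Shapiro), `X|_N` trivial, so finite (`Triv.lean`).
`H^1(X)`: `finiteDimensional_H1_left`.  `H^2(X)`: `finiteDimensional_H2_left` with `H^1(Q)` finite by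
the first part applied to `Q`.
-/

set_option autoImplicit false

noncomputable section

namespace Fermat.Agent.S55

open Module

variable {k : Type} [Field k] {H : Type} [Group H]
variable {X : Type} [AddCommGroup X] [Module k X]

theorem finiteDimensional_H1_of_cofinal (L : Levels H)
    (hfin : ∀ U : Subgroup H, L.IsOpen U → ∃ N : Subgroup H, L.IsOpen N ∧ N ≤ U ∧ N.Normal ∧
      FiniteDimensional k (H1 (L.sub N) (Representation.trivial k N k)))
    (ρ : Representation k H X) [FiniteDimensional k X] [Smooth L ρ] :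
    FiniteDimensional k (H1 L ρ) := by
  obtain ⟨N0, hN0, -, -, hρ0⟩ := Smooth.exists_normal_of_fg (L := L) (ρ := ρ)
  obtain ⟨N, hN, hNN0, hNn, hfd⟩ := hfin N0 hN0
  have hρ : ∀ g ∈ N, ρ g = 1 := fun g hg => hρ0 g (hNN0 hg)
  have := L.finite_quotient hN
  have := L.smoothSet_quotient' hN
  have h1 : FiniteDimensional k (H1 (L.sub N) (rsub ρ N)) := by
    rw [rsub_eq_trivial ρ N hρ]
    exact finiteDimensional_H1_trivial X (L.sub N)
  have h2 : FiniteDimensional k (H1 L (Fun ρ (H ⧸ N))) := finiteDimensional_H1_Fun L ρ N hN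
  exact finiteDimensional_H1_left L (constSES ρ (H ⧸ N))

theorem finiteDimensional_H2_of_cofinal (L : Levels H)
    (hfin : ∀ U : Subgroup H, L.IsOpen U → ∃ N : Subgroup H, L.IsOpen N ∧ N ≤ U ∧ N.Normal ∧
      FiniteDimensional k (H1 (L.sub N) (Representation.trivial k N k)) ∧
      FiniteDimensional k (H2 (L.sub N) (Representation.trivial k N k)))
    (ρ : Representation k H X) [FiniteDimensional k X] [Smooth L ρ] :
    FiniteDimensional k (H2 L ρ) := by
  obtain ⟨N0, hN0, -, -, hρ0⟩ := Smooth.exists_normal_of_fg (L := L) (ρ := ρ)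
  obtain ⟨N, hN, hNN0, hNn, -, hfd⟩ := hfin N0 hN0
  have hρ : ∀ g ∈ N, ρ g = 1 := fun g hg => hρ0 g (hNN0 hg)
  have := L.finite_quotient hN
  have := L.smoothSet_quotient' hN
  have h1 : FiniteDimensional k (H2 (L.sub N) (rsub ρ N)) := by
    rw [rsub_eq_trivial ρ N hρ]
    exact finiteDimensional_H2_trivial X (L.sub N)
  have h2 : FiniteDimensional k (H2 L (Fun ρ (H ⧸ N))) := finiteDimensional_H2_Fun L ρ N hN
  have h3 : FiniteDimensional k
      (H1 L (cokerRep (constMap k X (H ⧸ N)) (constMap_comm ρ (H ⧸ N)))) :=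
    finiteDimensional_H1_of_cofinal L (fun U hU => by
      obtain ⟨M, hM, hMU, hMn, hM1, -⟩ := hfin U hU
      exact ⟨M, hM, hMU, hMn, hM1⟩) _
  exact finiteDimensional_H2_left L (constSES ρ (H ⧸ N))

section
variable {p : ℕ} [Fact p.Prime] {L : Levels H} {n : ℕ}
  {Y : Type} [AddCommGroup Y] [Module (ZMod p) Y]

theorem SplitHyp.cofinal (h : SplitHyp p L n) (U : Subgroup H) (hU : L.IsOpen U) :
    ∃ N : Subgroup H, L.IsOpen N ∧ N ≤ U ∧ N.Normal ∧
      FiniteDimensional (ZMod p) (H1 (L.sub N) (Representation.trivial (ZMod p) N (ZMod p))) ∧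
      FiniteDimensional (ZMod p) (H2 (L.sub N) (Representation.trivial (ZMod p) N (ZMod p))) := by
  obtain ⟨N, hN, hNU, hNn, -⟩ := L.exists_normal hU
  refine ⟨N, hN, hNU, hNn, Module.finite_of_finrank_pos ?_, Module.finite_of_finrank_pos ?_⟩
  · rw [h.h1 N hN]; omega
  · rw [h.h2 N hN]; omega

theorem LocalHyp.cofinal {ω : H →* (ZMod p)ˣ} (h : LocalHyp p L ω n) (U : Subgroup H)
    (hU : L.IsOpen U) :
    ∃ N : Subgroup H, L.IsOpen N ∧ N ≤ U ∧ N.Normal ∧
      FiniteDimensional (ZMod p) (H1 (L.sub N) (Representation.trivial (ZMod p) N (ZMod p))) ∧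
      FiniteDimensional (ZMod p) (H2 (L.sub N) (Representation.trivial (ZMod p) N (ZMod p))) := by
  obtain ⟨N, hN, hNU, hNn, -⟩ := L.exists_normal (L.isOpen_inf hU h.ω_open)
  refine ⟨N, hN, hNU.trans inf_le_left, hNn, Module.finite_of_finrank_pos ?_,
    Module.finite_of_finrank_pos ?_⟩
  · rw [h.h1 N hN (hNU.trans inf_le_right)]; omega
  · rw [h.h2 N hN (hNU.trans inf_le_right)]; omega

theorem SplitHyp.fin1 (h : SplitHyp p L n) (ρ : Representation (ZMod p) H Y)
    [FiniteDimensional (ZMod p) Y] [Smooth L ρ] : FiniteDimensional (ZMod p) (H1 L ρ) :=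
  finiteDimensional_H1_of_cofinal L (fun U hU => by
    obtain ⟨M, hM, hMU, hMn, hM1, -⟩ := h.cofinal U hU
    exact ⟨M, hM, hMU, hMn, hM1⟩) ρ

theorem SplitHyp.fin2 (h : SplitHyp p L n) (ρ : Representation (ZMod p) H Y)
    [FiniteDimensional (ZMod p) Y] [Smooth L ρ] : FiniteDimensional (ZMod p) (H2 L ρ) :=
  finiteDimensional_H2_of_cofinal L h.cofinal ρ

theorem LocalHyp.fin1 {ω : H →* (ZMod p)ˣ} (h : LocalHyp p L ω n)
    (ρ : Representation (ZMod p) H Y)
    [FiniteDimensional (ZMod p) Y] [Smooth L ρ] : FiniteDimensional (ZMod p) (H1 L ρ) :=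
  finiteDimensional_H1_of_cofinal L (fun U hU => by
    obtain ⟨M, hM, hMU, hMn, hM1, -⟩ := h.cofinal U hU
    exact ⟨M, hM, hMU, hMn, hM1⟩) ρ

theorem LocalHyp.fin2 {ω : H →* (ZMod p)ˣ} (h : LocalHyp p L ω n)
    (ρ : Representation (ZMod p) H Y)
    [FiniteDimensional (ZMod p) Y] [Smooth L ρ] : FiniteDimensional (ZMod p) (H2 L ρ) :=
  finiteDimensional_H2_of_cofinal L h.cofinal ρ

end

end Fermat.Agent.S55

end
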