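import Fermat.Agent.S55.L.Duality.Right
import Fermat.Agent.S55.D.LinAlg

/-!
# S55 [L] L6b: the pairing is perfect for `B = Fun(H/N, X)`
TASK S55/L-DFunCount.
`N` normal open, `N ≤ ker ω`, acting trivially on `X`.
* `h^2(H;B) = h^2(N; X|_N) = dim X · h^2(N;𝔽_p) = dim X` (`finrank_H2_Fun`, `rsub_eq_trivial`,
  `finrank_H2_trivial`, `LocalHyp.h2`).
* `X^* ↪ H^0(B')`, `ψ ↦ Φ_ψ`, `Φ_ψ f = Σ_{g ∈ H/N} ω(g) ψ(ρ(g)⁻¹ f(g))` (well defined on `H/N`;
  `Φ_ψ (h f) = ω(h) Φ_ψ f` by reindexing `g = h g'`; injective: evaluate at `Pi.single 1 x`).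
  So `dim X ≤ h^0(B')`.
* with `h^0(B') ≤ h^2(B)` (`finrank_H0_dual_le`) both are equal, and a right nondegenerate pairing
  between spaces of the same finite dimension is left nondegenerate.
-/

set_option autoImplicit false

noncomputable section

namespace Fermat.Agent.S55

open Module

variable {p : ℕ} [Fact p.Prime] {H : Type} [Group H] {L : Levels H} {n : ℕ}
  {ω : H →* (ZMod p)ˣ}
variable {X : Type} [AddCommGroup X] [Module (ZMod p) X]

theorem LocalHyp.finrank_H2_Fun (h : LocalHyp p L ω n) (N : Subgroup H) [N.Normal]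
    (hN : L.IsOpen N) (hNω : N ≤ ω.ker) (ρ : Representation (ZMod p) H X)
    [FiniteDimensional (ZMod p) X] (hρ : ∀ g ∈ N, ρ g = 1) :
    finrank (ZMod p) (H2 L (Fun ρ (H ⧸ N))) = finrank (ZMod p) X := by
  have : Smooth L ρ := Smooth.of_forall_eq_one hN hρ
  have h2 := h.h2 N hN hNω
  have : FiniteDimensional (ZMod p) (H2 (L.sub N) (Representation.trivial (ZMod p) N (ZMod p))) :=
    Module.finite_of_finrank_pos (by rw [h2]; exact one_pos)
  rw [Fermat.Agent.S55.finrank_H2_Fun L ρ N hN, rsub_eq_trivial ρ N hρ,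
    finrank_H2_trivial X (L.sub N), h2, mul_one]

theorem LocalHyp.finiteDimensional_H2_Fun (h : LocalHyp p L ω n) (N : Subgroup H) [N.Normal]
    (hN : L.IsOpen N) (hNω : N ≤ ω.ker) (ρ : Representation (ZMod p) H X)
    [FiniteDimensional (ZMod p) X] (hρ : ∀ g ∈ N, ρ g = 1) :
    FiniteDimensional (ZMod p) (H2 L (Fun ρ (H ⧸ N))) := by
  have : Smooth L ρ := Smooth.of_forall_eq_one hN hρ
  have h2 := h.h2 N hN hNω
  have : FiniteDimensional (ZMod p) (H2 (L.sub N) (Representation.trivial (ZMod p) N (ZMod p))) :=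
    Module.finite_of_finrank_pos (by rw [h2]; exact one_pos)
  have : FiniteDimensional (ZMod p) (H2 (L.sub N) (rsub ρ N)) := by
    rw [rsub_eq_trivial ρ N hρ]
    exact finiteDimensional_H2_trivial X (L.sub N)
  exact Fermat.Agent.S55.finiteDimensional_H2_Fun L ρ N hN

namespace FunCount

/-- the local term `a_g ψ = ω(g) ψ ∘ ρ(g)⁻¹`. -/
def term (ω : H →* (ZMod p)ˣ) (ρ : Representation (ZMod p) H X) (g : H) :
    Module.Dual (ZMod p) X →ₗ[ZMod p] Module.Dual (ZMod p) X :=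
  (ω g : ZMod p) • Module.Dual.transpose (R := ZMod p) (ρ g⁻¹)

lemma term_apply (ρ : Representation (ZMod p) H X) (g : H) (ψ : Module.Dual (ZMod p) X) (x : X) :
    term ω ρ g ψ x = (ω g : ZMod p) * ψ (ρ g⁻¹ x) := rfl

lemma term_mul_right (N : Subgroup H) (hNω : N ≤ ω.ker) (ρ : Representation (ZMod p) H X)
    (hρ : ∀ g ∈ N, ρ g = 1) (g : H) {m : H} (hm : m ∈ N) : term ω ρ (g * m) = term ω ρ g := by
  ext ψ x
  rw [term_apply, term_apply, map_mul, (MonoidHom.mem_ker).1 (hNω hm), mul_one, mul_inv_rev,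
    map_mul, hρ _ (N.inv_mem hm), one_mul]

lemma term_out (N : Subgroup H) (hNω : N ≤ ω.ker) (ρ : Representation (ZMod p) H X)
    (hρ : ∀ g ∈ N, ρ g = 1) (g : H) :
    term ω ρ (Quotient.out (g : H ⧸ N)) = term ω ρ g := by
  obtain ⟨m, hm⟩ := QuotientGroup.mk_out_eq_mul N g
  rw [hm]
  exact term_mul_right N hNω ρ hρ g m.2

/-- `Φ_ψ f = Σ_{g ∈ H/N} ω(g) ψ(ρ(g)⁻¹ f(g))`. -/
def Phi (ω : H →* (ZMod p)ˣ) (N : Subgroup H) [Fintype (H ⧸ N)]
    (ρ : Representation (ZMod p) H X) :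
    Module.Dual (ZMod p) X →ₗ[ZMod p] Module.Dual (ZMod p) (H ⧸ N → X) :=
  ∑ c : H ⧸ N, (Module.Dual.transpose (R := ZMod p)
    (LinearMap.proj (R := ZMod p) (φ := fun _ : H ⧸ N => X) c)).comp (term ω ρ (Quotient.out c))

lemma Phi_apply (N : Subgroup H) [Fintype (H ⧸ N)] (ρ : Representation (ZMod p) H X)
    (ψ : Module.Dual (ZMod p) X) (f : H ⧸ N → X) :
    Phi ω N ρ ψ f = ∑ c : H ⧸ N, term ω ρ (Quotient.out c) ψ (f c) := by
  simp only [Phi, LinearMap.sum_apply, LinearMap.comp_apply]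
  rfl

lemma Phi_mem (N : Subgroup H) [N.Normal] [Fintype (H ⧸ N)] (hNω : N ≤ ω.ker)
    (ρ : Representation (ZMod p) H X) (hρ : ∀ g ∈ N, ρ g = 1) (ψ : Module.Dual (ZMod p) X) :
    Phi ω N ρ ψ ∈ H0 ((Fun ρ (H ⧸ N)).dual.twist ω) := by
  rw [mem_H0_dualTwist_iff]
  intro g f
  rw [Phi_apply, Phi_apply, Finset.smul_sum, ← Equiv.sum_comp (MulAction.toPerm g)]
  refine Finset.sum_congr rfl fun c _ => ?_
  obtain ⟨a, rfl⟩ := QuotientGroup.mk_surjective c
  have h1 : (MulAction.toPerm g) (a : H ⧸ N) = ((g * a : H) : H ⧸ N) := rfl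
  rw [h1, term_out N hNω ρ hρ, term_out N hNω ρ hρ, term_apply, term_apply, Fun_apply]
  have h2 : g⁻¹ • ((g * a : H) : H ⧸ N) = (a : H ⧸ N) := by
    show ((g⁻¹ * (g * a) : H) : H ⧸ N) = _
    rw [inv_mul_cancel_left]
  rw [h2, ← Module.End.mul_apply, ← map_mul, mul_inv_rev, inv_mul_cancel_right, map_mul,
    Units.val_mul, smul_eq_mul, mul_assoc]

lemma Phi_injective (N : Subgroup H) [Fintype (H ⧸ N)] (hNω : N ≤ ω.ker)
    (ρ : Representation (ZMod p) H X) (hρ : ∀ g ∈ N, ρ g = 1) :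
    Function.Injective (Phi ω N ρ) := by
  classical
  rw [injective_iff_map_eq_zero]
  intro ψ hψ
  ext x
  have h1 := congrArg (fun F : Module.Dual (ZMod p) (H ⧸ N → X) =>
    F (Pi.single ((1 : H) : H ⧸ N) x)) hψ
  simp only [LinearMap.zero_apply] at h1
  rw [Phi_apply, Finset.sum_eq_single ((1 : H) : H ⧸ N)] at h1
  · rw [Pi.single_eq_same, term_out N hNω ρ hρ, term_apply] at h1
    simpa using h1
  · intro c _ hc
    rw [Pi.single_eq_of_ne hc, map_zero]
  · intro hc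
    exact absurd (Finset.mem_univ _) hc

end FunCount

theorem le_finrank_H0_dual_Fun (N : Subgroup H) [N.Normal] [Finite (H ⧸ N)] (hNω : N ≤ ω.ker)
    (ρ : Representation (ZMod p) H X) [FiniteDimensional (ZMod p) X] (hρ : ∀ g ∈ N, ρ g = 1) :
    finrank (ZMod p) X ≤ finrank (ZMod p) ↥(H0 ((Fun ρ (H ⧸ N)).dual.twist ω)) := by
  have := Fintype.ofFinite (H ⧸ N)
  rw [← Subspace.dual_finrank_eq]
  let Ψ : Module.Dual (ZMod p) X →ₗ[ZMod p] ↥(H0 ((Fun ρ (H ⧸ N)).dual.twist ω)) :=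
    (FunCount.Phi ω N ρ).codRestrict _ (FunCount.Phi_mem N hNω ρ hρ)
  refine LinearMap.finrank_le_finrank_of_injective (f := Ψ) ?_
  intro a b hab
  exact FunCount.Phi_injective N hNω ρ hρ (congrArg Subtype.val hab)

/-- pure linear algebra: right nondegenerate + `dim P ≤ dim T` ⇒ left nondegenerate. -/
theorem left_nondeg_of_right {k P T : Type} [Field k] [AddCommGroup P] [Module k P]
    [AddCommGroup T] [Module k T] [FiniteDimensional k P] [FiniteDimensional k T]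
    (B : P →ₗ[k] T →ₗ[k] k) (hr : ∀ t, (∀ z, B z t = 0) → t = 0)
    (hd : finrank k P ≤ finrank k T) : ∀ z, (∀ t, B z t = 0) → z = 0 := by
  have hinj : Function.Injective B.flip := by
    rw [injective_iff_map_eq_zero]
    intro t ht
    exact hr t fun z => by
      have := congrArg (fun F : P →ₗ[k] k => F z) ht
      simpa using this
  have hsurj : Function.Surjective B.flip := by
    have hle : finrank k (Module.Dual k P) ≤ finrank k T := by
      rw [Subspace.dual_finrank_eq]; exact hd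
    have heq : finrank k T = finrank k (Module.Dual k P) :=
      le_antisymm (LinearMap.finrank_le_finrank_of_injective hinj) hle
    exact (LinearMap.injective_iff_surjective_of_finrank_eq_finrank heq).1 hinj
  intro z hz
  rw [← Module.forall_dual_apply_eq_zero_iff k z]
  intro F
  obtain ⟨t, rfl⟩ := hsurj F
  exact hz t

theorem LocalHyp.left_nondeg_Fun (h : LocalHyp p L ω n) (lam : H2 L (muOf ω) ≃ₗ[ZMod p] ZMod p)
    (N : Subgroup H) [N.Normal] (hN : L.IsOpen N) (hNω : N ≤ ω.ker)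
    (ρ : Representation (ZMod p) H X) [FiniteDimensional (ZMod p) X] (hρ : ∀ g ∈ N, ρ g = 1)
    (z : H2 L (Fun ρ (H ⧸ N)))
    (hz : ∀ φ : ↥(H0 ((Fun ρ (H ⧸ N)).dual.twist ω)),
      lam ((evP L (Fun ρ (H ⧸ N)) ω φ).map2 z) = 0) : z = 0 := by
  have : Smooth L ρ := Smooth.of_forall_eq_one hN hρ
  have : Finite (H ⧸ N) := Levels.finite_quotient hN
  have : L.SmoothSet (H ⧸ N) := Levels.smoothSet_quotient' hN
  have : FiniteDimensional (ZMod p) (H2 L (Fun ρ (H ⧸ N))) :=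
    h.finiteDimensional_H2_Fun N hN hNω ρ hρ
  refine left_nondeg_of_right (locPair L ω lam (Fun ρ (H ⧸ N)))
    (fun φ hφ => h.right_nondeg lam (Fun ρ (H ⧸ N)) φ hφ) ?_ z hz
  rw [h.finrank_H2_Fun N hN hNω ρ hρ]
  exact le_finrank_H0_dual_Fun N hNω ρ hρ

end Fermat.Agent.S55

end
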