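import Fermat.Agent.S55.L.Duality.FunCount

/-!
# S55 [L] L6c: left nondegeneracy for all `X`; final statements
TASK S55/L-DLeft.
`0 → A → B → X → 0` with `B = Fun(H/N,X)`, `π = Σ` (`sumSES`), `N` normal open `≤ ker ω` acting
trivially on `X`.  Let `c ∈ H^2(X)` be orthogonal to `H^0(X')`.  `c = π_* b` (L5).  For
`φ ∈ H^0(X')`: `⟨b, φ∘π⟩ = ⟨c, φ⟩ = 0`.  Let `S = i_* H^2(A) ⊂ H^2(B)`.  If `ψ ∈ H^0(B')` is orthogonal
to `S` then `⟨a, ψ∘i⟩ = 0` for all `a`, so `ψ∘i = 0` (right nondegeneracy for `A`), so `ψ = φ∘π`, so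
`⟨b,ψ⟩ = 0`.  The pairing for `B` is perfect (`left_nondeg_Fun`, `right_nondeg`), hence
`b ∈ S^{⊥⊥} = S` (`biorth` below), `c = π_* i_* a = 0`.
-/

set_option autoImplicit false

noncomputable section

namespace Fermat.Agent.S55

open Module

variable {p : ℕ} [Fact p.Prime] {H : Type} [Group H] {L : Levels H} {n : ℕ}
  {ω : H →* (ZMod p)ˣ}
variable {X : Type} [AddCommGroup X] [Module (ZMod p) X]

/-- pure linear algebra: biorthogonality for a pairing which is left nondegenerate. -/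
theorem biorth {k P T : Type} [Field k] [AddCommGroup P] [Module k P]
    [AddCommGroup T] [Module k T] [FiniteDimensional k P] [FiniteDimensional k T]
    (B : P →ₗ[k] T →ₗ[k] k) (hl : ∀ z, (∀ t, B z t = 0) → z = 0)
    (hr : ∀ t, (∀ z, B z t = 0) → t = 0) (S : Submodule k P) (b : P)
    (hb : ∀ t, (∀ s ∈ S, B s t = 0) → B b t = 0) : b ∈ S := by
  by_contra hbS
  obtain ⟨f, hfb, hfS⟩ := Submodule.exists_dual_map_eq_bot_of_notMem hbS inferInstance
  have hinjB : Function.Injective B := by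
    rw [injective_iff_map_eq_zero]
    intro z hz
    exact hl z (fun t => by rw [hz]; rfl)
  have hinjF : Function.Injective B.flip := by
    rw [injective_iff_map_eq_zero]
    intro t ht
    exact hr t (fun z => by rw [← LinearMap.flip_apply, ht]; rfl)
  have h1 : finrank k P ≤ finrank k T := by
    have := LinearMap.finrank_le_finrank_of_injective hinjB
    rwa [Subspace.dual_finrank_eq] at this
  have h2 : finrank k T ≤ finrank k P := by
    have := LinearMap.finrank_le_finrank_of_injective hinjF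
    rwa [Subspace.dual_finrank_eq] at this
  have hsurj : Function.Surjective B.flip := by
    refine (LinearMap.injective_iff_surjective_of_finrank_eq_finrank ?_).1 hinjF
    rw [Subspace.dual_finrank_eq]
    omega
  obtain ⟨t, ht⟩ := hsurj f
  apply hfb
  rw [← ht, LinearMap.flip_apply]
  apply hb
  intro s hs
  rw [← LinearMap.flip_apply, ht]
  have : f s ∈ S.map f := Submodule.mem_map_of_mem hs
  rw [hfS] at this
  exact (Submodule.mem_bot k).1 this

/-- an equivariant functional on `B` vanishing on `i(A)` factors through `π`. -/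
theorem SES.exists_dual_factor {A B C : Type} [AddCommGroup A] [Module (ZMod p) A]
    [AddCommGroup B] [Module (ZMod p) B] [AddCommGroup C] [Module (ZMod p) C]
    {ρA : Representation (ZMod p) H A} {ρB : Representation (ZMod p) H B}
    {ρC : Representation (ZMod p) H C} (E : SES ρA ρB ρC) (ψ : ↥(H0 (ρB.dual.twist ω)))
    (hψ : dualPull ω E.i E.i_comm ψ = 0) :
    ∃ φ : ↥(H0 (ρC.dual.twist ω)), dualPull ω E.π E.π_comm φ = ψ := by
  have hker : LinearMap.ker E.π ≤ LinearMap.ker (ψ : Module.Dual (ZMod p) B) := by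
    intro b hb
    obtain ⟨a, rfl⟩ := (E.exact b).1 hb
    have := congrArg (fun χ : ↥(H0 (ρA.dual.twist ω)) => (χ : Module.Dual (ZMod p) A) a) hψ
    simpa using this
  obtain ⟨φ, hφ⟩ := LES.exists_factor E.π E.surj (ψ : Module.Dual (ZMod p) B) hker
  have hmem : φ ∈ H0 (ρC.dual.twist ω) := by
    rw [mem_H0_dualTwist_iff]
    intro g c
    obtain ⟨b, rfl⟩ := E.surj c
    rw [← E.π_comm, hφ, hφ]
    exact (mem_H0_dualTwist_iff ρB ω _).1 ψ.2 g b
  refine ⟨⟨φ, hmem⟩, ?_⟩
  apply Subtype.ext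
  ext b
  exact hφ b

/-- quotient step. -/
theorem LocalHyp.left_nondeg_of_ses (h : LocalHyp p L ω n)
    (lam : H2 L (muOf ω) ≃ₗ[ZMod p] ZMod p)
    {A B C : Type} [AddCommGroup A] [Module (ZMod p) A]
    [AddCommGroup B] [Module (ZMod p) B] [AddCommGroup C] [Module (ZMod p) C]
    {ρA : Representation (ZMod p) H A} {ρB : Representation (ZMod p) H B}
    {ρC : Representation (ZMod p) H C} (E : SES ρA ρB ρC) [FiniteDimensional (ZMod p) B]
    [Smooth L ρB]
    (hB : ∀ z : H2 L ρB, (∀ φ : ↥(H0 (ρB.dual.twist ω)), lam ((evP L ρB ω φ).map2 z) = 0) → z = 0)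
    (c : H2 L ρC) (hc : ∀ φ : ↥(H0 (ρC.dual.twist ω)), lam ((evP L ρC ω φ).map2 c) = 0) :
    c = 0 := by
  haveI : FiniteDimensional (ZMod p) A := FiniteDimensional.of_injective E.i E.inj
  haveI : Smooth L ρA := Smooth.of_injective (ρ := ρB) E.i E.i_comm E.inj
  haveI : FiniteDimensional (ZMod p) (H2 L ρB) := h.fin2 ρB
  obtain ⟨b, rfl⟩ := h.map2_surjective E c
  have hbS : b ∈ LinearMap.range (E.iP L).map2 := by
    refine biorth (locPair L ω lam ρB) hB (fun ψ hψ => h.right_nondeg lam ρB ψ hψ) _ b ?_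
    intro ψ hψ
    have h0 : dualPull ω E.i E.i_comm ψ = 0 := by
      apply h.right_nondeg lam ρA
      intro a
      rw [← locPair_apply, ← locPair_natural]
      exact hψ _ ⟨a, rfl⟩
    obtain ⟨φ, rfl⟩ := E.exists_dual_factor ψ h0
    rw [← locPair_natural]
    exact hc φ
  obtain ⟨a, rfl⟩ := hbS
  exact (E.exact_i2_π2 L _).2 ⟨a, rfl⟩

/-- L6, left nondegeneracy. -/
theorem LocalHyp.left_nondeg (h : LocalHyp p L ω n) (lam : H2 L (muOf ω) ≃ₗ[ZMod p] ZMod p)
    (ρ : Representation (ZMod p) H X) [FiniteDimensional (ZMod p) X] [Smooth L ρ]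
    (z : H2 L ρ) (hz : ∀ φ : ↥(H0 (ρ.dual.twist ω)), lam ((evP L ρ ω φ).map2 z) = 0) : z = 0 := by
  obtain ⟨N₀, hN₀, -, -, hρ₀⟩ := Smooth.exists_normal_of_fg (L := L) (ρ := ρ)
  obtain ⟨N, hN, hle, hNn, -⟩ := L.exists_normal (L.isOpen_inf hN₀ h.ω_open)
  haveI := hNn
  have hNω : N ≤ ω.ker := hle.trans inf_le_right
  have hρ : ∀ g ∈ N, ρ g = 1 := fun g hg => hρ₀ g (hle hg).1
  haveI : Finite (H ⧸ N) := Levels.finite_quotient hN
  haveI : L.SmoothSet (H ⧸ N) := Levels.smoothSet_quotient' hN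
  exact h.left_nondeg_of_ses lam (sumSES ρ (H ⧸ N))
    (fun z' hz' => h.left_nondeg_Fun lam N hN hNω ρ hρ z' hz') z hz

end Fermat.Agent.S55

end
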