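import Fermat.Agent.S55.L.Duality.RightExact

/-!
# S55 [L] L6a: right nondegeneracy, naturality of the pairing
TASK S55/L-DRight.
`⟨z, φ⟩ := lam (φ_* z)` on `H^2(X) × H^0(X')`.
Right nondegeneracy: `φ ≠ 0` is onto `μ` (1-dimensional), so `φ_*` is onto `H^2(μ)`
(`LocalHyp.coeff_map2_surjective`), and `lam` is an isomorphism onto `ZMod p ≠ 0`.
-/

set_option autoImplicit false

noncomputable section

namespace Fermat.Agent.S55

open Module

variable {p : ℕ} [Fact p.Prime] {H : Type} [Group H] {L : Levels H} {n : ℕ}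
  {ω : H →* (ZMod p)ˣ}
variable {X Y : Type} [AddCommGroup X] [Module (ZMod p) X] [AddCommGroup Y] [Module (ZMod p) Y]

lemma Right_evP_map2_add (L : Levels H) (ω : H →* (ZMod p)ˣ) (ρ : Representation (ZMod p) H X)
    (φ φ' : ↥(H0 (ρ.dual.twist ω))) (z : H2 L ρ) :
    (evP L ρ ω (φ + φ')).map2 z = (evP L ρ ω φ).map2 z + (evP L ρ ω φ').map2 z := by
  obtain ⟨z, rfl⟩ := H2.mk_surjective L ρ z
  rw [Pair.map2_mk, Pair.map2_mk, Pair.map2_mk, ← map_add]
  congr 1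

lemma Right_evP_map2_smul (L : Levels H) (ω : H →* (ZMod p)ˣ) (ρ : Representation (ZMod p) H X)
    (c : ZMod p) (φ : ↥(H0 (ρ.dual.twist ω))) (z : H2 L ρ) :
    (evP L ρ ω (c • φ)).map2 z = c • (evP L ρ ω φ).map2 z := by
  obtain ⟨z, rfl⟩ := H2.mk_surjective L ρ z
  rw [Pair.map2_mk, Pair.map2_mk, ← map_smul]
  congr 1

/-- the pairing `H^2(X) × H^0(X') → 𝔽_p` as a bilinear map. -/
def locPair (L : Levels H) (ω : H →* (ZMod p)ˣ) (lam : H2 L (muOf ω) ≃ₗ[ZMod p] ZMod p)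
    (ρ : Representation (ZMod p) H X) :
    H2 L ρ →ₗ[ZMod p] ↥(H0 (ρ.dual.twist ω)) →ₗ[ZMod p] ZMod p :=
  LinearMap.mk₂ (ZMod p) (fun z φ => lam ((evP L ρ ω φ).map2 z))
    (fun z z' φ => by simp)
    (fun c z φ => by simp)
    (fun z φ φ' => by
      rw [Right_evP_map2_add, map_add])
    (fun c z φ => by
      rw [Right_evP_map2_smul, map_smul])

lemma locPair_apply (lam : H2 L (muOf ω) ≃ₗ[ZMod p] ZMod p) (ρ : Representation (ZMod p) H X)
    (z : H2 L ρ) (φ : ↥(H0 (ρ.dual.twist ω))) :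
    locPair L ω lam ρ z φ = lam ((evP L ρ ω φ).map2 z) := rfl

/-- pull back of invariants of the dual along an equivariant map `f : X → Y`. -/
def dualPull (ω : H →* (ZMod p)ˣ) {ρ : Representation (ZMod p) H X}
    {σ : Representation (ZMod p) H Y} (f : X →ₗ[ZMod p] Y) (hf : ∀ g x, f (ρ g x) = σ g (f x)) :
    ↥(H0 (σ.dual.twist ω)) →ₗ[ZMod p] ↥(H0 (ρ.dual.twist ω)) :=
  (Module.Dual.transpose (R := ZMod p) f).restrict (fun φ hφ => by
    rw [mem_H0_dualTwist_iff] at hφ ⊢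
    intro g x
    simp only [Module.Dual.transpose_apply, LinearMap.comp_apply, hf, hφ])

@[simp] lemma dualPull_coe_apply {ρ : Representation (ZMod p) H X}
    {σ : Representation (ZMod p) H Y} (f : X →ₗ[ZMod p] Y) (hf : ∀ g x, f (ρ g x) = σ g (f x))
    (φ : ↥(H0 (σ.dual.twist ω))) (x : X) :
    (dualPull ω f hf φ : Module.Dual (ZMod p) X) x = (φ : Module.Dual (ZMod p) Y) (f x) := rfl

/-- naturality: `⟨f_* z, φ⟩ = ⟨z, φ ∘ f⟩`. -/
lemma locPair_natural (lam : H2 L (muOf ω) ≃ₗ[ZMod p] ZMod p) {ρ : Representation (ZMod p) H X}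
    {σ : Representation (ZMod p) H Y} (f : X →ₗ[ZMod p] Y) (hf : ∀ g x, f (ρ g x) = σ g (f x))
    (z : H2 L ρ) (φ : ↥(H0 (σ.dual.twist ω))) :
    locPair L ω lam σ ((Pair.coeff L f hf).map2 z) φ = locPair L ω lam ρ z (dualPull ω f hf φ) := by
  rw [locPair_apply, locPair_apply, ← LinearMap.comp_apply, ← Pair.map2_comp]
  congr 1

/-- L6, right nondegeneracy. -/
theorem LocalHyp.right_nondeg (h : LocalHyp p L ω n) (lam : H2 L (muOf ω) ≃ₗ[ZMod p] ZMod p)
    (ρ : Representation (ZMod p) H X) [FiniteDimensional (ZMod p) X] [Smooth L ρ]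
    (φ : ↥(H0 (ρ.dual.twist ω))) (hφ : ∀ z : H2 L ρ, lam ((evP L ρ ω φ).map2 z) = 0) : φ = 0 := by
  by_contra hne
  have hne' : (φ : Module.Dual (ZMod p) X) ≠ 0 := fun h0 => hne (Subtype.ext h0)
  obtain ⟨x, hx⟩ : ∃ x, (φ : Module.Dual (ZMod p) X) x ≠ 0 := by
    by_contra hcon
    push Not at hcon
    exact hne' (LinearMap.ext hcon)
  have hs : Function.Surjective (φ : Module.Dual (ZMod p) X) := by
    intro c
    refine ⟨(c / (φ : Module.Dual (ZMod p) X) x) • x, ?_⟩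
    rw [map_smul, smul_eq_mul, div_mul_cancel₀ _ hx]
  obtain ⟨z, hz⟩ := h.coeff_map2_surjective (ρB := ρ) (ρC := muOf ω)
    (φ : Module.Dual (ZMod p) X) (dualTwist_invariant_apply ρ ω φ) hs (lam.symm 1)
  have := hφ z
  have h1 : lam ((evP L ρ ω φ).map2 z) = 1 := by
    have : (evP L ρ ω φ).map2 z = lam.symm 1 := hz
    rw [this, LinearEquiv.apply_symm_apply]
  rw [h1] at this
  exact one_ne_zero this

/-- consequence: `h^0(X') ≤ h^2(X)`. -/
theorem LocalHyp.finrank_H0_dual_le (h : LocalHyp p L ω n)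
    (lam : H2 L (muOf ω) ≃ₗ[ZMod p] ZMod p)
    (ρ : Representation (ZMod p) H X) [FiniteDimensional (ZMod p) X] [Smooth L ρ] :
    finrank (ZMod p) ↥(H0 (ρ.dual.twist ω)) ≤ finrank (ZMod p) (H2 L ρ) := by
  have := h.fin2 ρ
  rw [← Subspace.dual_finrank_eq (K := ZMod p) (V := H2 L ρ)]
  refine LinearMap.finrank_le_finrank_of_injective (f := (locPair L ω lam ρ).flip) ?_
  refine (injective_iff_map_eq_zero _).2 (fun φ hφ => ?_)
  refine h.right_nondeg lam ρ φ (fun z => ?_)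
  have := congrArg (fun t : Module.Dual (ZMod p) (H2 L ρ) => t z) hφ
  exact this

end Fermat.Agent.S55

end
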