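import Fermat.Agent.S55.L.Duality.Squeeze
import Fermat.Agent.S55.L.PGroup

/-!
# S55 [L] L5: `H^2` is right exact
TASK S55/L-DRightExact.   (blueprint part 3, L5, last sentence)

`N` normal open acting trivially on `B` and contained in `ker ω`; `W₁` = preimage of a `p`-Sylow of
the finite group `H/N`: open, `p ∤ [H:W₁]`, `W₁ ≤ ker ω` (a `p`-group has no nontrivial character to
`(ZMod p)ˣ`), `W₁/N` a `p`-group.  (compare `Datum.exists_sylow` in `D/Split.lean`.)
`z ∈ H^2(H;C)`: `res_{W₁} z = π_* y` by `SplitHyp.map2_surjective` for the group `↥W₁`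
(`LocalHyp.split`, `E.sub W₁`, `N.subgroupOf W₁`); then
`π_* (cores y) = cores (π_* y) = cores (res z) = [H:W₁] z` (`cores2_coeff`, `cores2_res`) and
`[H:W₁]` is invertible in `ZMod p`.
-/

set_option autoImplicit false
set_option linter.style.haveILetI false

noncomputable section

namespace Fermat.Agent.S55

open Module

variable {p : ℕ} [Fact p.Prime] {H : Type} [Group H] {L : Levels H} {n : ℕ}
variable {A B C : Type} [AddCommGroup A] [Module (ZMod p) A] [AddCommGroup B] [Module (ZMod p) B]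
  [AddCommGroup C] [Module (ZMod p) C]
variable {ρA : Representation (ZMod p) H A} {ρB : Representation (ZMod p) H B}
  {ρC : Representation (ZMod p) H C}

/-- (renamed from `exists_sylow_preimage`, which is already declared in `L/PGroup.lean`.) -/
theorem exists_sylow_preimage_ker (L : Levels H) (ω : H →* (ZMod p)ˣ) (hω : L.IsOpen ω.ker)
    (U₀ : Subgroup H) (hU₀ : L.IsOpen U₀) :
    ∃ (W₁ N : Subgroup H) (_ : N.Normal), L.IsOpen N ∧ N ≤ U₀ ∧ N ≤ W₁ ∧ W₁ ≤ ω.ker ∧
      IsPGroup p (↥W₁ ⧸ N.subgroupOf W₁) ∧ ¬ p ∣ W₁.index := by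
  obtain ⟨N, hN, hle, hNn, hNf⟩ := L.exists_normal (L.isOpen_inf hU₀ hω)
  haveI := hNn
  haveI := hNf
  obtain ⟨P, hNP, hpP, -, k, hk⟩ := exists_sylow_preimage (p := p) N
  have hpg : IsPGroup p (↥P ⧸ N.subgroupOf P) :=
    IsPGroup.of_card (n := k) (by rw [← Subgroup.index_eq_card, hk])
  refine ⟨P, N, hNn, hN, fun n hn => (hle hn).1, hNP, ?_, hpg, hpP⟩
  intro g hg
  obtain ⟨m, hm⟩ := hpg ((⟨g, hg⟩ : P) : ↥P ⧸ N.subgroupOf P)
  rw [← QuotientGroup.mk_pow, QuotientGroup.eq_one_iff] at hm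
  have hm' : g ^ p ^ m ∈ ω.ker := (hle hm).2
  rw [MonoidHom.mem_ker, map_pow] at hm'
  have h1 : ω g ^ (p - 1) = 1 := by
    rw [← ZMod.card_units p]
    exact pow_card_eq_one
  have hpp : p.Prime := Fact.out
  have hcop : Nat.Coprime (p ^ m) (p - 1) :=
    Nat.Coprime.pow_left m ((Nat.coprime_self_sub_right hpp.one_le).mpr (Nat.coprime_one_right p))
  rw [MonoidHom.mem_ker]
  have := pow_gcd_eq_one.mpr ⟨hm', h1⟩
  rwa [hcop.gcd_eq_one, pow_one] at this

/-- L5: `H^2(B) → H^2(C)` is onto for every short exact sequence of finite dimensional smooth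
modules. -/
theorem LocalHyp.map2_surjective {ω : H →* (ZMod p)ˣ} (h : LocalHyp p L ω n) (E : SES ρA ρB ρC)
    [FiniteDimensional (ZMod p) B] [Smooth L ρB] :
    Function.Surjective (E.πP L).map2 := by
  intro z
  haveI : Smooth L ρC := Smooth.of_surjective (ρ := ρB) E.π E.π_comm E.surj
  obtain ⟨U₀, hU₀, -, -, hfix⟩ := Smooth.exists_normal_of_fg (L := L) (ρ := ρB)
  obtain ⟨P, N, hNn, hN, hNU, hNP, hPω, hpg, hpP⟩ :=
    exists_sylow_preimage_ker L ω h.ω_open U₀ hU₀
  haveI := hNn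
  have hP : L.IsOpen P := L.isOpen_mono hN hNP
  obtain ⟨y, hy⟩ := (h.split P hP hPω).map2_surjective (N.subgroupOf P) (hN.subgroupOf P) hpg
    (E.sub P) (fun g hg => hfix g (hNU hg)) ((Pair.res L ρC P).map2 z)
  obtain ⟨u, hu⟩ : IsUnit (P.index : ZMod p) :=
    IsUnit.mk0 _ (fun h0 => hpP ((ZMod.natCast_eq_zero_iff _ p).mp h0))
  refine ⟨(↑u⁻¹ : ZMod p) • cores2 L ρB P hP y, ?_⟩
  have h1 : (E.πP L).map2 (cores2 L ρB P hP y) =
      cores2 L ρC P hP ((Pair.coeffSub L P E.π E.π_comm).map2 y) :=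
    (cores2_coeff L P hP E.π E.π_comm y).symm
  have h2 : (Pair.coeffSub L P E.π E.π_comm).map2 y = (Pair.res L ρC P).map2 z := hy
  rw [map_smul, h1, h2, cores2_res, ← Nat.cast_smul_eq_nsmul (ZMod p), ← hu, smul_smul, u.inv_mul,
    one_smul]

/-- the same for an equivariant surjection. -/
theorem LocalHyp.coeff_map2_surjective {ω : H →* (ZMod p)ˣ} (h : LocalHyp p L ω n)
    [FiniteDimensional (ZMod p) B] [Smooth L ρB] (π : B →ₗ[ZMod p] C)
    (hπ : ∀ g b, π (ρB g b) = ρC g (π b)) (hs : Function.Surjective π) :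
    Function.Surjective (Pair.coeff L π hπ).map2 :=
  h.map2_surjective (SES.ofSurj π hπ hs)

end Fermat.Agent.S55

end
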