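import Fermat.Agent.S55.L.Duality.Triv

/-!
# S55 [L] L5: the numerical hypotheses pass to open subgroups
TASK S55/L-DSub.
For `W' : Subgroup ↥W` open: `W'' = W'.map W.subtype` is open in `H` (`Levels.IsOpen.map_subtype`),
`H^i((L.sub W).sub W'; triv) ≅ H^i(L.sub W''; triv)` by `Pair.subSub`, `Pair.isDense_subSub`
(for `ρ` = trivial representation of `H`; `rsub` of a trivial representation is trivial:
`rsub_eq_trivial` / `eq_trivial_of_forall`), index: `Subgroup.index_map_subtype`.
-/

set_option autoImplicit false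

noncomputable section

namespace Fermat.Agent.S55

open Module

variable {p : ℕ} [Fact p.Prime] {H : Type} [Group H] {L : Levels H} {n : ℕ}

theorem LocalHyp.split {ω : H →* (ZMod p)ˣ} (h : LocalHyp p L ω n) (W : Subgroup H)
    (hW : L.IsOpen W) (hle : W ≤ ω.ker) : SplitHyp p (L.sub W) (n * W.index) := by
  have hopen : ∀ W' : Subgroup W, (L.sub W).IsOpen W' → L.IsOpen (W'.map W.subtype) :=
    fun W' hW' => hW.map_subtype hW'
  have hker : ∀ W' : Subgroup W, W'.map W.subtype ≤ ω.ker := by
    rintro W' _ ⟨w, _, rfl⟩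
    exact hle w.2
  have hidx : ∀ W' : Subgroup W, n * (W'.map W.subtype).index = n * W.index * W'.index := by
    intro W'
    rw [Subgroup.index_map_subtype]
    ring
  constructor
  · intro W' hW'
    have e := (LinearEquiv.ofBijective _
      (Pair.isDense_subSub L (trivF p H) W W').bijective1).finrank_eq
    have h1 := h.h1 _ (hopen W' hW') (hker W')
    rw [hidx] at h1
    rw [← h1]
    exact e.symm
  · intro W' hW'
    have e := (LinearEquiv.ofBijective _
      (Pair.isDense_subSub L (trivF p H) W W').bijective2).finrank_eq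
    have h2 := h.h2 _ (hopen W' hW') (hker W')
    rw [← h2]
    exact e.symm

/-- `h^1(H;𝔽_p) = 2 + n` -/
theorem SplitHyp.finrank_H1_triv (h : SplitHyp p L n) :
    finrank (ZMod p) (H1 L (trivF p H)) = 2 + n := by
  have e := (LinearEquiv.ofBijective _ (Pair.isDense_res_top L (trivF p H)).bijective1).finrank_eq
  have h1 := h.h1 ⊤ L.isOpen_top
  rw [Subgroup.index_top, mul_one] at h1
  rw [← h1]
  exact e

/-- `h^2(H;𝔽_p) = 1` -/
theorem SplitHyp.finrank_H2_triv (h : SplitHyp p L n) :
    finrank (ZMod p) (H2 L (trivF p H)) = 1 := by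
  have e := (LinearEquiv.ofBijective _ (Pair.isDense_res_top L (trivF p H)).bijective2).finrank_eq
  have h2 := h.h2 ⊤ L.isOpen_top
  rw [← h2]
  exact e

/-- `χ(H;𝔽_p) = -n` -/
theorem SplitHyp.eulerChar_triv (h : SplitHyp p L n) : eulerChar L (trivF p H) = -(n : ℤ) := by
  unfold eulerChar
  rw [h.finrank_H1_triv, h.finrank_H2_triv, finrank_H0_trivial, finrank_self]
  push_cast
  ring

theorem SplitHyp.phi_triv (h : SplitHyp p L n) : phi L n (trivF p H) = 0 := by
  unfold phi
  rw [h.eulerChar_triv, finrank_self]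
  simp

end Fermat.Agent.S55

end
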