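import Fermat.Agent.S55.L.Duality.Fin
import Fermat.Agent.S55.L.Duality.Sub
import Fermat.Agent.S55.D.Inv

/-!
# S55 [L] L5: the Euler characteristic squeeze (`p`-group case)
TASK S55/L-DSqueeze.   (blueprint part 3, L5)

`(H, L, n)` with `SplitHyp`; `N` normal open, `H/N` a `p`-group.  Class `𝒞`: finite dimensional
representations on which `N` acts trivially (they are smooth: `Smooth.of_forall_eq_one`).
`φ(X) = χ(X) + n dim X`.
* `phi_le_add`: `eulerChar_le` + additivity of `dim` (finiteness: `SplitHyp.fin1/fin2`).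
* `phi_le_zero`: induction on `dim X`: a nonzero invariant functional `l : X → 𝔽_p`
  (`exists_invariant_functional`, or redo the fixed point count), `SES.ofSurj l`:
  `φ(X) ≤ φ(ker l) + φ(𝔽_p) = φ(ker l)`.
* `phi_Fun`: Shapiro + trivial coefficients (`Triv.lean`): `h^i(H;Fun(H/N,X)) = dim X · h^i(N;𝔽_p)`,
  `χ = dim X (1 - (2 + n [H:N]) + 1)`.
* `phi_eq_zero`: `sumSES ρ (H ⧸ N)`: `0 = φ(Fun) ≤ φ(ker Σ) + φ(X)`, both `≤ 0`.
* `map2_surjective`: `eulerChar_ses`: the defect `dim coker(H^2 B → H^2 C)` is `φ(A)+φ(C)-φ(B) = 0`.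
-/

set_option autoImplicit false

noncomputable section

namespace Fermat.Agent.S55

open Module

variable {p : ℕ} [Fact p.Prime] {H : Type} [Group H] {L : Levels H} {n : ℕ}
variable {X : Type} [AddCommGroup X] [Module (ZMod p) X]
variable {A B C : Type} [AddCommGroup A] [Module (ZMod p) A] [AddCommGroup B] [Module (ZMod p) B]
  [AddCommGroup C] [Module (ZMod p) C]
variable {ρA : Representation (ZMod p) H A} {ρB : Representation (ZMod p) H B}
  {ρC : Representation (ZMod p) H C}

/-- in a SES, if `N` acts trivially on `B` it acts trivially on `A` and `C`. -/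
lemma SES.trivial_left (E : SES ρA ρB ρC) {N : Subgroup H} (hB : ∀ g ∈ N, ρB g = 1) :
    ∀ g ∈ N, ρA g = 1 := by
  intro g hg
  ext a
  apply E.inj
  rw [E.i_comm, hB g hg]
  rfl

lemma SES.trivial_right (E : SES ρA ρB ρC) {N : Subgroup H} (hB : ∀ g ∈ N, ρB g = 1) :
    ∀ g ∈ N, ρC g = 1 := by
  intro g hg
  ext c
  obtain ⟨b, rfl⟩ := E.surj c
  rw [← E.π_comm, hB g hg]
  rfl

lemma SES.finrank_eq (E : SES ρA ρB ρC) [FiniteDimensional (ZMod p) B] :
    finrank (ZMod p) B = finrank (ZMod p) A + finrank (ZMod p) C := by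
  have h1 := LinearMap.finrank_range_add_finrank_ker E.π
  have h2 : LinearMap.range E.π = ⊤ := LinearMap.range_eq_top.2 E.surj
  have h3 : LinearMap.ker E.π = LinearMap.range E.i := (LinearMap.exact_iff.1 E.exact)
  rw [h2, h3, finrank_top, LinearMap.finrank_range_of_inj E.inj] at h1
  omega

lemma SES.finiteDimensional_left (E : SES ρA ρB ρC) [FiniteDimensional (ZMod p) B] :
    FiniteDimensional (ZMod p) A := by
  exact FiniteDimensional.of_injective E.i E.inj

lemma SES.finiteDimensional_right (E : SES ρA ρB ρC) [FiniteDimensional (ZMod p) B] :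
    FiniteDimensional (ZMod p) C := by
  exact FiniteDimensional.of_surjective E.π E.surj

/-- `N` normal acts trivially on `Fun ρ (H ⧸ N)` if it acts trivially on `X`. -/
lemma Fun_trivial_of_normal (ρ : Representation (ZMod p) H X) (N : Subgroup H) [N.Normal]
    (hρ : ∀ g ∈ N, ρ g = 1) : ∀ g ∈ N, Fun ρ (H ⧸ N) g = 1 := by
  intro g hg
  ext f w
  obtain ⟨x, rfl⟩ := QuotientGroup.mk_surjective w
  have h1 : g⁻¹ • (QuotientGroup.mk x : H ⧸ N) = QuotientGroup.mk x := by
    change ((g⁻¹ * x : H) : H ⧸ N) = x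
    rw [QuotientGroup.eq]
    have : (g⁻¹ * x)⁻¹ * x = x⁻¹ * g * x := by group
    rw [this]
    simpa using (inferInstance : N.Normal).conj_mem g hg x⁻¹
  rw [Fun_apply, h1, hρ g hg]
  rfl

theorem SplitHyp.phi_le_add (h : SplitHyp p L n) (E : SES ρA ρB ρC)
    [FiniteDimensional (ZMod p) B] [Smooth L ρA] [Smooth L ρB] [Smooth L ρC] :
    phi L n ρB ≤ phi L n ρA + phi L n ρC := by
  have := E.finiteDimensional_left
  have := E.finiteDimensional_right
  have := h.fin1 ρA
  have := h.fin1 ρB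
  have := h.fin1 ρC
  have := h.fin2 ρA
  have := h.fin2 ρB
  have := h.fin2 ρC
  have h1 := eulerChar_le L E
  have h2 := E.finrank_eq
  unfold phi
  rw [h2]
  push_cast
  linarith

namespace Squeeze

/-- `φ(X) ≤ 0`, by induction on `dim X`. -/
theorem phi_le_zero_aux (h : SplitHyp p L n) (N : Subgroup H) [N.Normal] (hN : L.IsOpen N)
    (hp : IsPGroup p (H ⧸ N)) (d : ℕ) : ∀ (X : Type) [AddCommGroup X] [Module (ZMod p) X]
    (ρ : Representation (ZMod p) H X) [FiniteDimensional (ZMod p) X]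
    (_ : ∀ g ∈ N, ρ g = 1), finrank (ZMod p) X = d → phi L n ρ ≤ 0 := by
  induction d with
  | zero =>
    intro X _ _ ρ _ hρ hd
    have hs : Subsingleton X := Module.finrank_zero_iff.1 hd
    unfold phi eulerChar
    rw [hd, Module.finrank_zero_of_subsingleton, Module.finrank_zero_of_subsingleton,
      Module.finrank_zero_of_subsingleton]
    simp
  | succ d ih =>
    intro X _ _ ρ _ hρ hd
    have hp' : IsPGroup p (↥(⊤ : Subgroup H) ⧸ N.subgroupOf ⊤) := by
      intro g
      obtain ⟨u, rfl⟩ := QuotientGroup.mk_surjective g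
      obtain ⟨k, hk⟩ := hp (QuotientGroup.mk (u : H))
      refine ⟨k, ?_⟩
      rw [← QuotientGroup.mk_pow, QuotientGroup.eq_one_iff] at hk ⊢
      exact hk
    have hnt : Nontrivial X := Module.nontrivial_of_finrank_pos (R := ZMod p) (by omega)
    obtain ⟨l, hl, z, -, hz⟩ := exists_invariant_functional ρ ⊤ N le_top inferInstance hρ hp' ⊤
      (fun _ _ _ _ => Submodule.mem_top) top_ne_bot
    have hl' : ∀ (g : H) (x : X), l (ρ g x) = trivF p H g (l x) := fun g x =>
      hl g (Subgroup.mem_top g) x Submodule.mem_top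
    have hsurj : Function.Surjective l := by
      intro c
      refine ⟨(c * (l z)⁻¹) • z, ?_⟩
      rw [map_smul, smul_eq_mul, mul_assoc, inv_mul_cancel₀ hz, mul_one]
    have hK := (SES.ofSurj l hl' hsurj).trivial_left hρ
    have s1 : Smooth L ρ := Smooth.of_forall_eq_one hN hρ
    have s2 : Smooth L (kerRep l hl') := Smooth.of_forall_eq_one hN hK
    have h1 := h.phi_le_add (SES.ofSurj l hl' hsurj)
    rw [h.phi_triv, add_zero] at h1
    have h2 := (SES.ofSurj l hl' hsurj).finrank_eq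
    rw [hd, Module.finrank_self] at h2
    exact h1.trans (ih _ (kerRep l hl') hK (by omega))

end Squeeze

theorem SplitHyp.phi_le_zero (h : SplitHyp p L n) (N : Subgroup H) [N.Normal] (hN : L.IsOpen N)
    (hp : IsPGroup p (H ⧸ N)) (ρ : Representation (ZMod p) H X) [FiniteDimensional (ZMod p) X]
    (hρ : ∀ g ∈ N, ρ g = 1) : phi L n ρ ≤ 0 := by
  exact Squeeze.phi_le_zero_aux h N hN hp _ X ρ hρ rfl

theorem SplitHyp.phi_Fun (h : SplitHyp p L n) (N : Subgroup H) [N.Normal] (hN : L.IsOpen N)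
    (ρ : Representation (ZMod p) H X) [FiniteDimensional (ZMod p) X]
    (hρ : ∀ g ∈ N, ρ g = 1) : phi L n (Fun ρ (H ⧸ N)) = 0 := by
  have hsm : Smooth L ρ := Smooth.of_forall_eq_one hN hρ
  have e1 := h.h1 N hN
  have e2 := h.h2 N hN
  have f1 : FiniteDimensional (ZMod p) (H1 (L.sub N) (Representation.trivial (ZMod p) N (ZMod p))) :=
    FiniteDimensional.of_finrank_pos (by rw [e1]; omega)
  have f2 : FiniteDimensional (ZMod p) (H2 (L.sub N) (Representation.trivial (ZMod p) N (ZMod p))) :=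
    FiniteDimensional.of_finrank_pos (by rw [e2]; omega)
  have ht := rsub_eq_trivial ρ N hρ
  have a0 := finrank_H0_Fun ρ N
  have a1 := finrank_H1_Fun L ρ N hN
  have a2 := finrank_H2_Fun L ρ N hN
  rw [ht] at a0 a1 a2
  rw [finrank_H0_trivial] at a0
  rw [finrank_H1_trivial, e1] at a1
  rw [finrank_H2_trivial, e2] at a2
  have a3 := finrank_Fun (k := ZMod p) (X := X) L N hN
  unfold phi eulerChar
  rw [a0, a1, a2, a3]
  push_cast
  ring

theorem SplitHyp.phi_eq_zero (h : SplitHyp p L n) (N : Subgroup H) [N.Normal] (hN : L.IsOpen N)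
    (hp : IsPGroup p (H ⧸ N)) (ρ : Representation (ZMod p) H X) [FiniteDimensional (ZMod p) X]
    (hρ : ∀ g ∈ N, ρ g = 1) : phi L n ρ = 0 := by
  have hfin : Finite (H ⧸ N) := L.finite_quotient hN
  have hF := Fun_trivial_of_normal ρ N hρ
  have hK := (sumSES ρ (H ⧸ N)).trivial_left hF
  have s1 : Smooth L ρ := Smooth.of_forall_eq_one hN hρ
  have s2 : Smooth L (Fun ρ (H ⧸ N)) := Smooth.of_forall_eq_one hN hF
  have s3 : Smooth L (kerRep (sumMap (ZMod p) X (H ⧸ N)) (sumMap_comm ρ (H ⧸ N))) :=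
    Smooth.of_forall_eq_one hN hK
  have h1 := h.phi_le_add (sumSES ρ (H ⧸ N))
  rw [h.phi_Fun N hN ρ hρ] at h1
  have h2 := h.phi_le_zero N hN hp _ hK
  have h3 := h.phi_le_zero N hN hp ρ hρ
  omega

/-- right exactness of `H^2` in the `p`-group case. -/
theorem SplitHyp.map2_surjective (h : SplitHyp p L n) (N : Subgroup H) [N.Normal]
    (hN : L.IsOpen N) (hp : IsPGroup p (H ⧸ N)) (E : SES ρA ρB ρC)
    [FiniteDimensional (ZMod p) B] (hB : ∀ g ∈ N, ρB g = 1) :
    Function.Surjective (E.πP L).map2 := by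
  have := E.finiteDimensional_left
  have := E.finiteDimensional_right
  have hA := E.trivial_left hB
  have hC := E.trivial_right hB
  have : Smooth L ρA := Smooth.of_forall_eq_one hN hA
  have : Smooth L ρB := Smooth.of_forall_eq_one hN hB
  have : Smooth L ρC := Smooth.of_forall_eq_one hN hC
  have := h.fin1 ρA
  have := h.fin1 ρB
  have := h.fin1 ρC
  have := h.fin2 ρA
  have := h.fin2 ρB
  have := h.fin2 ρC
  have h1 := eulerChar_ses L E
  have h2 := E.finrank_eq
  have pA := h.phi_eq_zero N hN hp ρA hA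
  have pB := h.phi_eq_zero N hN hp ρB hB
  have pC := h.phi_eq_zero N hN hp ρC hC
  unfold phi at pA pB pC
  rw [h2] at pB
  push_cast at pB
  have h3 : (finrank (ZMod p) (H2 L ρC ⧸ LinearMap.range (E.πP L).map2) : ℤ) = 0 := by
    linarith
  have h4 : finrank (ZMod p) (H2 L ρC ⧸ LinearMap.range (E.πP L).map2) = 0 := by exact_mod_cast h3
  have h5 : Subsingleton (H2 L ρC ⧸ LinearMap.range (E.πP L).map2) := Module.finrank_zero_iff.1 h4
  exact LinearMap.range_eq_top.1 (Submodule.Quotient.subsingleton_iff.1 h5)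

end Fermat.Agent.S55

end
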